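import Fermat.Agent.MUL.Orig.F4.Shapiro.Inst

/-!
# F4 / Shapiro / Hyper : Shapiro's lemma for `HH^r(G, Hom(k[G/U], K)) = HH^r(U, K)`, `r = 1, 2`

`U` an open subgroup for the level structure `𝓤`, `K` a 2-term complex, `N = k[G/U] = permRep k U`.

* `shT1`, `shT2` : restriction to `U` followed by evaluation at the base coset;
* `trT1`, `trT2` : the explicit inverse on cochains (`shT ∘ trT = id`);
* `shapiro_inj1`, `shapiro_inj2` : a cocycle of `Hom(N, K)` whose image under `shT` is a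
  coboundary is a coboundary (this is (S2) of LOC);
* `shapiro_surj1`, `shapiro_surj2` : every cocycle over `U` is `shT` of a cocycle over `G`;
* the same in degree 1 for the coefficient module `N` itself (`shN1`, `trN1`, `shapiroN_inj1`).
-/

set_option autoImplicit false

open CategoryTheory groupCohomology

namespace Fermat.Agent.F4

variable {k G : Type} [CommRing k] [Group G]

section Hyper

variable (U : Subgroup G) [Fintype (G ⧸ U)] (K : Cx k G)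

/-- Shapiro map on total 1-cochains. -/
noncomputable def shT1 (z : T1 (homCx (permRep k U) K)) : T1 (K.res U.subtype) :=
  ((coindHom U K.K0).sh1 z.1, (coindHom U K.K1).sh0 z.2)

/-- Shapiro map on total 2-cochains. -/
noncomputable def shT2 (z : T2 (homCx (permRep k U) K)) : T2 (K.res U.subtype) :=
  ((coindHom U K.K0).sh2 z.1, (coindHom U K.K1).sh1 z.2)

/-- The inverse of the Shapiro map on total 1-cochains. -/
noncomputable def trT1 (y : T1 (K.res U.subtype)) : T1 (homCx (permRep k U) K) :=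
  ((coindHom U K.K0).tr1 y.1, (coindHom U K.K1).tr0 y.2)

/-- The inverse of the Shapiro map on total 2-cochains. -/
noncomputable def trT2 (y : T2 (K.res U.subtype)) : T2 (homCx (permRep k U) K) :=
  ((coindHom U K.K0).tr2 y.1, (coindHom U K.K1).tr1 y.2)

lemma shT1_apply (z : T1 (homCx (permRep k U) K)) :
    shT1 U K z = (fun u : U => (z.1 (u : G) : permRep k U →ₗ[k] K.K0) (permDelta U (shBase U)),
      (z.2 : permRep k U →ₗ[k] K.K1) (permDelta U (shBase U))) := rfl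

lemma shT2_apply (z : T2 (homCx (permRep k U) K)) :
    shT2 U K z = (fun p : U × U =>
        (z.1 ((p.1 : G), (p.2 : G)) : permRep k U →ₗ[k] K.K0) (permDelta U (shBase U)),
      fun u : U => (z.2 (u : G) : permRep k U →ₗ[k] K.K1) (permDelta U (shBase U))) := rfl

lemma shT1_trT1 (y : T1 (K.res U.subtype)) : shT1 U K (trT1 U K y) = y :=
  Prod.ext ((coindHom U K.K0).sh1_tr1 y.1) ((coindHom U K.K1).sh0_tr0 y.2)

lemma shT2_trT2 (y : T2 (K.res U.subtype)) : shT2 U K (trT2 U K y) = y :=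
  Prod.ext ((coindHom U K.K0).sh2_tr2 y.1) ((coindHom U K.K1).sh1_tr1 y.2)

lemma trT2_zero : trT2 U K 0 = 0 := by
  refine Prod.ext ?_ ?_
  · funext p
    apply (coindHom U K.K0).ext
    intro x
    show (coindHom U K.K0).π x ((coindHom U K.K0).tr2 0 p) = (coindHom U K.K0).π x 0
    rw [Coind.π_tr2, map_zero]
    exact map_zero _
  · funext g
    apply (coindHom U K.K1).ext
    intro x
    show (coindHom U K.K1).π x ((coindHom U K.K1).tr1 0 g) = (coindHom U K.K1).π x 0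
    rw [Coind.π_tr1, map_zero]
    exact map_zero _

/-! ### Compatibility with the differentials -/

lemma shT1_D0 (m : permRep k U →ₗ[k] K.K0) :
    shT1 U K (D0 (homCx (permRep k U) K) m) = D0 (K.res U.subtype) ((coindHom U K.K0).sh0 m) :=
  Prod.ext ((coindHom U K.K0).sh1_δ0 m) rfl

lemma shT2_D1 (z : T1 (homCx (permRep k U) K)) :
    shT2 U K (D1 (homCx (permRep k U) K) z) = D1 (K.res U.subtype) (shT1 U K z) := by
  refine Prod.ext ((coindHom U K.K0).sh2_δ1 z.1) ?_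
  funext u
  show (coindHom U K.K1).π (shBase U)
      ((homCx (permRep k U) K).d (z.1 (u : G)) - ((homRep (permRep k U) K.K1).ρ (u : G) z.2 - z.2))
    = K.d ((coindHom U K.K0).π (shBase U) (z.1 (u : G)))
      - (K.K1.ρ (u : G) ((coindHom U K.K1).π (shBase U) z.2) - (coindHom U K.K1).π (shBase U) z.2)
  rw [map_sub, map_sub, (coindHom U K.K1).π_base_ρ, (coindHom_d U K).comm_π]

lemma trT1_D0 (a : K.K0) :
    trT1 U K (D0 (K.res U.subtype) a) = D0 (homCx (permRep k U) K) ((coindHom U K.K0).tr0 a) := by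
  refine Prod.ext ((coindHom U K.K0).δ0_tr0 a).symm ?_
  exact ((coindHom_d U K).map_tr0 a).symm

lemma trT2_D1_aux (a : U → Rep.res U.subtype K.K0) (b : Rep.res U.subtype K.K1) :
    trT2 U K (D1 (K.res U.subtype) (a, b)) = D1 (homCx (permRep k U) K) (trT1 U K (a, b)) := by
  refine Prod.ext ((coindHom U K.K0).δ1_tr1 a).symm ?_
  funext g
  apply (coindHom U K.K1).ext
  intro x
  show (coindHom U K.K1).π x ((coindHom U K.K1).tr1
      (fun u : U => K.d (a u) - (K.K1.ρ (u : G) b - b)) g)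
    = (coindHom U K.K1).π x ((homCx (permRep k U) K).d ((coindHom U K.K0).tr1 a g)
      - ((homRep (permRep k U) K.K1).ρ g ((coindHom U K.K1).tr0 b)
        - (coindHom U K.K1).tr0 b))
  rw [Coind.π_tr1, map_sub ((coindHom U K.K1).π x), map_sub ((coindHom U K.K1).π x),
    (coindHom_d U K).comm_π, Coind.π_tr1, Coind.π_ρ, Coind.π_tr0, Coind.π_tr0,
    map_sub (K.K1.ρ (shSec U x)), map_sub (K.K1.ρ (shSec U x)), K.comm,
    ← Module.End.mul_apply, ← map_mul, ← Module.End.mul_apply (K.K1.ρ g), ← map_mul,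
    shSec_mul_shW]

lemma trT2_D1 (y : T1 (K.res U.subtype)) :
    trT2 U K (D1 (K.res U.subtype) y) = D1 (homCx (permRep k U) K) (trT1 U K y) :=
  trT2_D1_aux U K y.1 y.2

/-! ### Cocycles and coboundaries -/

variable (𝓤 : Levels G)

lemma shT1_mem_ZZ1 {z : T1 (homCx (permRep k U) K)} (hz : z ∈ ZZ1 𝓤 (homCx (permRep k U) K)) :
    shT1 U K z ∈ ZZ1 (𝓤.sub U) (K.res U.subtype) := by
  have hD : D1 (homCx (permRep k U) K) z = 0 := (Submodule.mem_inf.1 hz).1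
  obtain ⟨-, -, h3⟩ := (mem_ZZ1_iff 𝓤 _ z).1 hz
  refine Submodule.mem_inf.2 ⟨?_, ?_⟩
  · rw [LinearMap.mem_ker, ← shT2_D1, hD]
    rfl
  · exact Submodule.mem_prod.2 ⟨(coindHom U K.K0).isLC_sh1 𝓤 h3, Submodule.mem_top⟩

lemma shT2_mem_ZZ2 {z : T2 (homCx (permRep k U) K)} (hz : z ∈ ZZ2 𝓤 (homCx (permRep k U) K)) :
    shT2 U K z ∈ ZZ2 (𝓤.sub U) (K.res U.subtype) := by
  obtain ⟨h1, h2, h3, h4⟩ := (mem_ZZ2_iff 𝓤 _ z).1 hz
  refine (mem_ZZ2_iff _ _ _).2 ⟨(coindHom U K.K0).δ2_sh2_eq_zero h1, ?_,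
    (coindHom U K.K0).isLC_sh2 𝓤 h3, (coindHom U K.K1).isLC_sh1 𝓤 h4⟩
  funext p
  have e := congrArg ((coindHom U K.K1).π (shBase U)) (congrFun h2 ((p.1 : G), (p.2 : G)))
  rw [Cx.dco_apply, (coindHom_d U K).comm_π] at e
  have e2 := congrFun ((coindHom U K.K1).sh2_δ1 z.2) p
  exact e.trans e2

lemma shT1_mem_BB1 {z : T1 (homCx (permRep k U) K)} (hz : z ∈ BB1 (homCx (permRep k U) K)) :
    shT1 U K z ∈ BB1 (K.res U.subtype) := by
  obtain ⟨m, rfl⟩ := (mem_BB1_iff _ _).1 hz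
  exact (mem_BB1_iff _ _).2 ⟨_, (shT1_D0 U K m).symm⟩

lemma shT2_mem_BB2 {z : T2 (homCx (permRep k U) K)} (hz : z ∈ BB2 𝓤 (homCx (permRep k U) K)) :
    shT2 U K z ∈ BB2 (𝓤.sub U) (K.res U.subtype) := by
  obtain ⟨y, hy, rfl⟩ := (mem_BB2_iff _ _ _).1 hz
  exact (mem_BB2_iff _ _ _).2 ⟨shT1 U K y, (coindHom U K.K0).isLC_sh1 𝓤 hy, (shT2_D1 U K y).symm⟩

variable {𝓤}

lemma trT1_mem_ZZ1 (hU : 𝓤.IsOpen U) {y : T1 (K.res U.subtype)}
    (hy : y ∈ ZZ1 (𝓤.sub U) (K.res U.subtype)) :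
    trT1 U K y ∈ ZZ1 𝓤 (homCx (permRep k U) K) := by
  have hD : D1 (K.res U.subtype) y = 0 := (Submodule.mem_inf.1 hy).1
  obtain ⟨-, -, h3⟩ := (mem_ZZ1_iff _ _ y).1 hy
  refine Submodule.mem_inf.2 ⟨?_, ?_⟩
  · rw [LinearMap.mem_ker, ← trT2_D1, hD, trT2_zero]
  · exact Submodule.mem_prod.2 ⟨(coindHom U K.K0).isLC_tr1 𝓤 hU h3, Submodule.mem_top⟩

lemma dco_tr2_aux (a : U × U → Rep.res U.subtype K.K0) (b : U → Rep.res U.subtype K.K1)
    (h2 : (fun p => K.d (a p)) = δ1 (Rep.res U.subtype K.K1) b) :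
    (homCx (permRep k U) K).dco (G × G) ((coindHom U K.K0).tr2 a)
      = δ1 (homRep (permRep k U) K.K1) ((coindHom U K.K1).tr1 b) := by
  rw [(coindHom U K.K1).δ1_tr1, ← h2]
  funext p
  apply (coindHom U K.K1).ext
  intro x
  rw [Coind.π_tr2, Cx.dco_apply, (coindHom_d U K).comm_π, Coind.π_tr2, K.comm]

lemma trT2_mem_ZZ2 (hU : 𝓤.IsOpen U) {y : T2 (K.res U.subtype)}
    (hy : y ∈ ZZ2 (𝓤.sub U) (K.res U.subtype)) :
    trT2 U K y ∈ ZZ2 𝓤 (homCx (permRep k U) K) := by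
  obtain ⟨h1, h2, h3, h4⟩ := (mem_ZZ2_iff _ _ y).1 hy
  exact (mem_ZZ2_iff _ _ _).2 ⟨(coindHom U K.K0).δ2_tr2_eq_zero h1, dco_tr2_aux U K y.1 y.2 h2,
    (coindHom U K.K0).isLC_tr2 𝓤 hU h3, (coindHom U K.K1).isLC_tr1 𝓤 hU h4⟩

lemma trT2_mem_BB2 (hU : 𝓤.IsOpen U) {y : T2 (K.res U.subtype)}
    (hy : y ∈ BB2 (𝓤.sub U) (K.res U.subtype)) :
    trT2 U K y ∈ BB2 𝓤 (homCx (permRep k U) K) := by
  obtain ⟨c, hc, rfl⟩ := (mem_BB2_iff _ _ _).1 hy
  exact (mem_BB2_iff _ _ _).2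
    ⟨trT1 U K c, (coindHom U K.K0).isLC_tr1 𝓤 hU hc, (trT2_D1 U K c).symm⟩

lemma trT1_mem_BB1 {y : T1 (K.res U.subtype)} (hy : y ∈ BB1 (K.res U.subtype)) :
    trT1 U K y ∈ BB1 (homCx (permRep k U) K) := by
  obtain ⟨a, rfl⟩ := (mem_BB1_iff _ _).1 hy
  exact (mem_BB1_iff _ _).2 ⟨_, (trT1_D0 U K a).symm⟩

/-! ### The homotopy -/

/-- On 1-cocycles, `trT1 (shT1 z) - z = D⁰ (ho⁰ z.1)`. -/
lemma trT1_shT1_sub {z : T1 (homCx (permRep k U) K)}
    (hz : z ∈ ZZ1 𝓤 (homCx (permRep k U) K)) :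
    trT1 U K (shT1 U K z) - z = D0 (homCx (permRep k U) K) ((coindHom U K.K0).ho0 z.1) := by
  obtain ⟨h1, h2, -⟩ := (mem_ZZ1_iff 𝓤 _ z).1 hz
  refine Prod.ext ?_ ?_
  · show (coindHom U K.K0).tr1 ((coindHom U K.K0).sh1 z.1) - z.1 = δ0 _ ((coindHom U K.K0).ho0 z.1)
    rw [(coindHom U K.K0).tr1_sh1_sub, h1]
    have : (coindHom U K.K0).ho1 (0 : G × G → homRep (permRep k U) K.K0) = 0 := by
      funext g
      apply (coindHom U K.K0).ext
      intro x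
      rw [Coind.π_ho1]
      simp
    rw [this, add_zero]
  · show (coindHom U K.K1).tr0 ((coindHom U K.K1).sh0 z.2) - z.2
      = (homCx (permRep k U) K).d ((coindHom U K.K0).ho0 z.1)
    apply (coindHom U K.K1).ext
    intro x
    have e := congrArg ((coindHom U K.K1).π x) (congrFun h2 (shSec U x))
    rw [Cx.dco_apply, δ0_apply, map_sub, Coind.π_ρ, shSec_inv_smul] at e
    rw [map_sub, Coind.π_tr0, (coindHom_d U K).comm_π, Coind.π_ho0, ← (coindHom_d U K).comm_π, e]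
    rfl

/-- On 2-cocycles, `trT2 (shT2 z) - z = D¹ (ho¹ z.1, - ho⁰ z.2)`. -/
lemma trT2_shT2_sub {z : T2 (homCx (permRep k U) K)}
    (hz : z ∈ ZZ2 𝓤 (homCx (permRep k U) K)) :
    trT2 U K (shT2 U K z) - z = D1 (homCx (permRep k U) K)
      ((coindHom U K.K0).ho1 z.1, -(coindHom U K.K1).ho0 z.2) := by
  obtain ⟨h1, h2, -, -⟩ := (mem_ZZ2_iff 𝓤 _ z).1 hz
  refine Prod.ext ((coindHom U K.K0).tr2_sh2_sub h1) ?_
  show (coindHom U K.K1).tr1 ((coindHom U K.K1).sh1 z.2) - z.2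
    = (homCx (permRep k U) K).dco G ((coindHom U K.K0).ho1 z.1)
      - δ0 (homRep (permRep k U) K.K1) (-(coindHom U K.K1).ho0 z.2)
  rw [(coindHom U K.K1).tr1_sh1_sub, ← h2, map_neg, sub_neg_eq_add, add_comm]
  congr 1
  exact ((coindHom_d U K).map_ho1 z.1).symm

/-! ### Shapiro's lemma -/

/-- **Shapiro, injectivity in degree 1.** -/
theorem shapiro_inj1 {z : T1 (homCx (permRep k U) K)}
    (hz : z ∈ ZZ1 𝓤 (homCx (permRep k U) K)) (h : shT1 U K z ∈ BB1 (K.res U.subtype)) :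
    z ∈ BB1 (homCx (permRep k U) K) := by
  have h1 := trT1_mem_BB1 U K h
  have h2 := trT1_shT1_sub U K hz
  have h3 : z = trT1 U K (shT1 U K z) - D0 (homCx (permRep k U) K) ((coindHom U K.K0).ho0 z.1) := by
    rw [← h2]; abel
  rw [h3]
  exact (BB1 _).sub_mem h1 ((mem_BB1_iff _ _).2 ⟨_, rfl⟩)

/-- **Shapiro, injectivity in degree 2** (this is (S2)). -/
theorem shapiro_inj2 (hU : 𝓤.IsOpen U) {z : T2 (homCx (permRep k U) K)}
    (hz : z ∈ ZZ2 𝓤 (homCx (permRep k U) K))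
    (h : shT2 U K z ∈ BB2 (𝓤.sub U) (K.res U.subtype)) :
    z ∈ BB2 𝓤 (homCx (permRep k U) K) := by
  have h1 := trT2_mem_BB2 U K hU h
  have h2 := trT2_shT2_sub U K hz
  obtain ⟨-, -, h3, -⟩ := (mem_ZZ2_iff 𝓤 _ z).1 hz
  have h4 : z = trT2 U K (shT2 U K z) - D1 (homCx (permRep k U) K)
      ((coindHom U K.K0).ho1 z.1, -(coindHom U K.K1).ho0 z.2) := by
    rw [← h2]; abel
  rw [h4]
  refine (BB2 _ _).sub_mem h1 ((mem_BB2_iff _ _ _).2 ⟨_, ?_, rfl⟩)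
  exact (coindHom U K.K0).isLC_ho1 𝓤 hU h3

/-- **Shapiro, surjectivity in degree 1** (on the nose). -/
theorem shapiro_surj1 (hU : 𝓤.IsOpen U) {y : T1 (K.res U.subtype)}
    (hy : y ∈ ZZ1 (𝓤.sub U) (K.res U.subtype)) :
    ∃ z ∈ ZZ1 𝓤 (homCx (permRep k U) K), shT1 U K z = y :=
  ⟨trT1 U K y, trT1_mem_ZZ1 U K hU hy, shT1_trT1 U K y⟩

/-- **Shapiro, surjectivity in degree 2** (on the nose). -/
theorem shapiro_surj2 (hU : 𝓤.IsOpen U) {y : T2 (K.res U.subtype)}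
    (hy : y ∈ ZZ2 (𝓤.sub U) (K.res U.subtype)) :
    ∃ z ∈ ZZ2 𝓤 (homCx (permRep k U) K), shT2 U K z = y :=
  ⟨trT2 U K y, trT2_mem_ZZ2 U K hU hy, shT2_trT2 U K y⟩

end Hyper

end Fermat.Agent.F4
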